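import Mathlib.Analysis.SpecialFunctions.Pow.Asymptotics
import Mathlib.NumberTheory.Chebyshev
import Fermat.Agent.Root.SummaryPrimeNumberTheorem

/-!
# The Cantor tree of well approximable numbers

At each step an interval `[c - ℓ, c + ℓ]` is replaced by the intervals of half-width
`1 / (4 (2Q) ^ τ)` around the fractions `p / q` it contains, for `q` a prime in `(Q, 2Q]`.
-/

set_option autoImplicit false

noncomputable section

open Finset Filter Topology

namespace FA.JarnikBesicovitch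

/-- The half-width of the intervals of the level made with denominators in `(Q, 2Q]`. -/
def width (τ : ℝ) (Q : ℕ) : ℝ := 1 / (4 * (2 * (Q : ℝ)) ^ τ)

/-- The primes in `(Q, 2Q]`. -/
def primeRange (Q : ℕ) : Finset ℕ := (Ioc Q (2 * Q)).filter Nat.Prime

/-- The number of fractions kept with each denominator. -/
def childCount (ℓ : ℝ) (Q : ℕ) : ℕ := ⌊ℓ * Q / 2⌋₊

/-- The number of children of each interval. -/
def branching (ℓ : ℝ) (Q : ℕ) : ℕ := (primeRange Q).card * childCount ℓ Q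

/-- The centres of the children of the interval `[c - ℓ, c + ℓ]`. -/
def children (τ ℓ : ℝ) (Q : ℕ) (c : ℝ) : Finset ℝ :=
  (primeRange Q ×ˢ range (childCount ℓ Q)).image fun a =>
    ((⌈(c - ℓ + width τ Q) * a.1⌉ + a.2 : ℤ) : ℝ) / a.1

/-- The fractions `p / q` with `0 < p < q` and `q` a prime in `(Q, 2Q]`. -/
def IsLevelPoint (Q : ℕ) (x : ℝ) : Prop :=
  ∃ q ∈ primeRange Q, ∃ p : ℕ, 0 < p ∧ p < q ∧ x = (p : ℝ) / q

/-- The conditions on a scale `Q` following an interval of half-width `ℓ`. -/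
structure IsGoodScale (τ s ℓ : ℝ) (Q : ℕ) : Prop where
  two_le : 2 ≤ Q
  large : 8 ≤ ℓ * Q
  mass : 1 ≤ (branching ℓ Q : ℝ) * width τ Q ^ s
  many : (Q : ℝ) ^ (1 + s) ≤ branching ℓ Q

theorem mem_primeRange {Q q : ℕ} (hq : q ∈ primeRange Q) :
    q.Prime ∧ Q < q ∧ q ≤ 2 * Q := by
  simp only [primeRange, mem_filter, mem_Ioc] at hq
  exact ⟨hq.2, hq.1⟩

theorem width_pos {τ : ℝ} {Q : ℕ} (hQ : 0 < Q) : 0 < width τ Q := by
  have : (0 : ℝ) < Q := Nat.cast_pos.2 hQ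
  exact div_pos one_pos (mul_pos four_pos (Real.rpow_pos_of_pos (by positivity) _))

theorem width_le {τ : ℝ} (hτ : 2 ≤ τ) {Q : ℕ} (hQ : 0 < Q) :
    4 * width τ Q ≤ 1 / (4 * (Q : ℝ) ^ 2) := by
  have hQ' : (1 : ℝ) ≤ Q := by exact_mod_cast hQ
  have h := Real.rpow_le_rpow_of_exponent_le (by linarith : (1 : ℝ) ≤ 2 * Q) hτ
  rw [Real.rpow_two, mul_pow] at h
  rw [width, mul_one_div, div_le_div_iff₀ (by positivity) (by positivity)]
  linarith

theorem IsGoodScale.pos {τ s ℓ : ℝ} {Q : ℕ} (h : IsGoodScale τ s ℓ Q) : 0 < Q :=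
  lt_of_lt_of_le two_pos h.two_le

theorem IsGoodScale.width_le_quarter {τ s ℓ : ℝ} {Q : ℕ} (hτ : 2 ≤ τ)
    (h : IsGoodScale τ s ℓ Q) : width τ Q ≤ ℓ / 4 := by
  have hQ : (2 : ℝ) ≤ Q := by exact_mod_cast h.two_le
  have h1 := width_le hτ h.pos
  have h2 : 1 / (4 * (Q : ℝ) ^ 2) ≤ ℓ := by
    rw [div_le_iff₀ (by positivity)]
    nlinarith [mul_le_mul h.large hQ (by norm_num) (by linarith [h.large])]
  linarith

theorem IsGoodScale.le_childCount {τ s ℓ : ℝ} {Q : ℕ} (h : IsGoodScale τ s ℓ Q) :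
    ℓ * Q / 4 ≤ (childCount ℓ Q : ℝ) := by
  have := Nat.lt_floor_add_one (ℓ * Q / 2)
  have := h.large
  rw [childCount]
  linarith

theorem children_bound {τ s ℓ : ℝ} {Q : ℕ} (hτ : 2 ≤ τ) (hℓ : 0 < ℓ)
    (h : IsGoodScale τ s ℓ Q) {c : ℝ} {q i : ℕ} (hq : q ∈ primeRange Q)
    (hi : i < childCount ℓ Q) :
    c - ℓ + width τ Q ≤ ((⌈(c - ℓ + width τ Q) * q⌉ + i : ℤ) : ℝ) / q ∧
      ((⌈(c - ℓ + width τ Q) * q⌉ + i : ℤ) : ℝ) / q ≤ c + ℓ - width τ Q := by
  obtain ⟨_, hQq, -⟩ := mem_primeRange hq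
  have hqR : (Q : ℝ) < q := Nat.cast_lt.2 hQq
  have hQ0 : (0 : ℝ) ≤ Q := Nat.cast_nonneg Q
  have hw := h.width_le_quarter hτ
  have h1 := Int.le_ceil ((c - ℓ + width τ Q) * q)
  have h2 := Int.ceil_lt_add_one ((c - ℓ + width τ Q) * q)
  have hiR : (i : ℝ) + 1 ≤ childCount ℓ Q := by exact_mod_cast hi
  have hi0 : (0 : ℝ) ≤ i := Nat.cast_nonneg i
  have hfl : (childCount ℓ Q : ℝ) ≤ ℓ * Q / 2 := Nat.floor_le (by positivity)
  have h3 : ℓ * Q ≤ ℓ * q := mul_le_mul_of_nonneg_left hqR.le hℓ.le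
  have h4 : width τ Q * q ≤ ℓ / 4 * q := mul_le_mul_of_nonneg_right hw (by linarith)
  push_cast
  constructor
  · rw [le_div_iff₀ (by linarith)]
    linarith
  · rw [div_le_iff₀ (by linarith)]
    nlinarith

theorem abs_sub_le_of_mem_children {τ s ℓ : ℝ} {Q : ℕ} (hτ : 2 ≤ τ) (hℓ : 0 < ℓ)
    (h : IsGoodScale τ s ℓ Q) {c x : ℝ} (hx : x ∈ children τ ℓ Q c) :
    |x - c| ≤ ℓ - width τ Q := by
  obtain ⟨a, ha, rfl⟩ := mem_image.1 hx
  rw [mem_product, mem_range] at ha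
  obtain ⟨h1, h2⟩ := children_bound hτ hℓ h (c := c) ha.1 ha.2
  rw [abs_le]
  constructor <;> linarith

theorem exists_num {τ s ℓ : ℝ} {Q : ℕ} (hτ : 2 ≤ τ) (hℓ : 0 < ℓ) (h : IsGoodScale τ s ℓ Q)
    {c : ℝ} (hc : ℓ ≤ c) (hc' : c ≤ 1 - ℓ) {q i : ℕ} (hq : q ∈ primeRange Q)
    (hi : i < childCount ℓ Q) :
    ∃ p : ℕ, 0 < p ∧ p < q ∧ (p : ℤ) = ⌈(c - ℓ + width τ Q) * q⌉ + i := by
  have hqR : (0 : ℝ) < q := Nat.cast_pos.2 (mem_primeRange hq).1.pos
  have hw := width_pos (τ := τ) h.pos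
  obtain ⟨h1, h2⟩ := children_bound hτ hℓ h (c := c) hq hi
  set m : ℤ := ⌈(c - ℓ + width τ Q) * q⌉ + i
  rw [le_div_iff₀ hqR] at h1
  rw [div_le_iff₀ hqR] at h2
  have hm0 : (0 : ℝ) < m := lt_of_lt_of_le (mul_pos (by linarith) hqR) h1
  have hm1 : (m : ℝ) < q := lt_of_le_of_lt h2 (by
    calc (c + ℓ - width τ Q) * q < 1 * q := mul_lt_mul_of_pos_right (by linarith) hqR
      _ = q := one_mul _)
  norm_cast at hm0 hm1
  exact ⟨m.toNat, by omega, by omega, by omega⟩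

theorem isLevelPoint_of_mem_children {τ s ℓ : ℝ} {Q : ℕ} (hτ : 2 ≤ τ) (hℓ : 0 < ℓ)
    (h : IsGoodScale τ s ℓ Q) {c x : ℝ} (hc : ℓ ≤ c) (hc' : c ≤ 1 - ℓ)
    (hx : x ∈ children τ ℓ Q c) : IsLevelPoint Q x := by
  obtain ⟨a, ha, rfl⟩ := mem_image.1 hx
  rw [mem_product, mem_range] at ha
  obtain ⟨p, hp0, hp1, hp⟩ := exists_num hτ hℓ h hc hc' ha.1 ha.2
  exact ⟨a.1, ha.1, p, hp0, hp1, by rw [← hp, Int.cast_natCast]⟩

theorem eq_of_div_eq {p q p' q' : ℕ} (hq : q.Prime) (hq' : q'.Prime) (hp : 0 < p)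
    (hpq : p < q) (h : (p : ℝ) / q = (p' : ℝ) / q') : q = q' ∧ p = p' := by
  rw [div_eq_div_iff (Nat.cast_ne_zero.2 hq.ne_zero) (Nat.cast_ne_zero.2 hq'.ne_zero)] at h
  have h' : p * q' = p' * q := by exact_mod_cast h
  have hqq : q = q' := by
    rcases hq.dvd_mul.1 (Dvd.intro_left p' h'.symm) with h1 | h1
    · exact absurd (Nat.le_of_dvd hp h1) (not_le.2 hpq)
    · exact (Nat.prime_dvd_prime_iff_eq hq hq').1 h1
  subst hqq
  exact ⟨rfl, Nat.eq_of_mul_eq_mul_right hq.pos h'⟩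

theorem card_children {τ s ℓ : ℝ} {Q : ℕ} (hτ : 2 ≤ τ) (hℓ : 0 < ℓ)
    (h : IsGoodScale τ s ℓ Q) {c : ℝ} (hc : ℓ ≤ c) (hc' : c ≤ 1 - ℓ) :
    (children τ ℓ Q c).card = branching ℓ Q := by
  rw [children, card_image_of_injOn, card_product, card_range, branching]
  rintro ⟨q, i⟩ ha ⟨q', i'⟩ ha' he
  simp only [coe_product, Set.mem_prod, mem_coe, mem_range] at ha ha'
  obtain ⟨p, hp0, hp1, hp⟩ := exists_num hτ hℓ h hc hc' ha.1 ha.2
  obtain ⟨p', -, -, hp'⟩ := exists_num hτ hℓ h hc hc' ha'.1 ha'.2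
  simp only [← hp, ← hp', Int.cast_natCast] at he
  obtain ⟨rfl, rfl⟩ :=
    eq_of_div_eq (mem_primeRange ha.1).1 (mem_primeRange ha'.1).1 hp0 hp1 he
  obtain rfl : i = i' := by omega
  rfl

/-- Distinct level points are `1 / (4 Q ^ 2)` apart. -/
theorem IsLevelPoint.separated {Q : ℕ} {x y : ℝ} (hx : IsLevelPoint Q x)
    (hy : IsLevelPoint Q y) (hne : x ≠ y) : 1 / (4 * (Q : ℝ) ^ 2) ≤ |x - y| := by
  obtain ⟨q, hq, p, -, -, rfl⟩ := hx
  obtain ⟨q', hq', p', -, -, rfl⟩ := hy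
  have hQ : (0 : ℝ) ≤ Q := Nat.cast_nonneg Q
  have h0 : (0 : ℝ) < q := Nat.cast_pos.2 (mem_primeRange hq).1.pos
  have h0' : (0 : ℝ) < q' := Nat.cast_pos.2 (mem_primeRange hq').1.pos
  rw [Ne, div_eq_div_iff h0.ne' h0'.ne'] at hne
  rw [div_sub_div _ _ h0.ne' h0'.ne', abs_div, abs_of_pos (mul_pos h0 h0')]
  refine div_le_div₀ (abs_nonneg _) ?_ (mul_pos h0 h0') ?_
  · have hz : ((p : ℤ) * q' - q * p') ≠ 0 := by
      intro hz
      apply hne
      have : (((p : ℤ) * q' - q * p' : ℤ) : ℝ) = 0 := by rw [hz, Int.cast_zero]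
      push_cast at this
      linarith
    exact_mod_cast Int.one_le_abs hz
  · have h1 : (q : ℝ) ≤ 2 * Q := by exact_mod_cast (mem_primeRange hq).2.2
    have h2 : (q' : ℝ) ≤ 2 * Q := by exact_mod_cast (mem_primeRange hq').2.2
    calc (q : ℝ) * q' ≤ (2 * Q) * (2 * Q) := by gcongr
      _ = 4 * (Q : ℝ) ^ 2 := by ring

theorem eventually_card_primeRange {ε : ℝ} (hε : 0 < ε) :
    ∀ᶠ Q : ℕ in atTop, (Q : ℝ) ^ (1 - ε) ≤ (primeRange Q).card := by
  have hθ := FA.PNT.Summary.tendsto_theta.comp (tendsto_natCast_atTop_atTop (R := ℝ))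
  have hθ2 := FA.PNT.Summary.tendsto_theta.comp
    ((tendsto_natCast_atTop_atTop (R := ℝ)).const_mul_atTop two_pos)
  have hlog := (tendsto_natCast_atTop_atTop (R := ℝ)).eventually
    ((isLittleO_log_rpow_atTop hε).bound (show (0 : ℝ) < 1 / 4 by norm_num))
  filter_upwards [hθ.eventually (eventually_le_nhds (show (1 : ℝ) < 11 / 10 by norm_num)),
    hθ2.eventually (eventually_ge_nhds (show (9 / 10 : ℝ) < 1 by norm_num)), hlog,
    eventually_ge_atTop 2] with Q h1 h2 h3 hQ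
  simp only [Function.comp_apply] at h1 h2
  have hQR : (2 : ℝ) ≤ Q := by exact_mod_cast hQ
  rw [div_le_iff₀ (by linarith)] at h1
  rw [le_div_iff₀ (by linarith)] at h2
  have hdiff : Chebyshev.theta (2 * Q : ℝ) - Chebyshev.theta Q ≤
      (primeRange Q).card * Real.log (2 * Q) := by
    have e : ∀ k : ℕ, Chebyshev.theta (k : ℝ) =
        ∑ p ∈ (Ioc 0 k).filter Nat.Prime, Real.log p := fun k => by
      rw [Chebyshev.theta, Nat.floor_natCast]
    rw [show (2 * Q : ℝ) = ((2 * Q : ℕ) : ℝ) by push_cast; rfl, e, e,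
      ← sum_sdiff_eq_sub (filter_subset_filter _ (Ioc_subset_Ioc_right (by omega)))]
    refine ((sum_le_card_nsmul _ _ (Real.log (2 * Q : ℕ)) fun p hp => ?_).trans_eq
      (nsmul_eq_mul _ _)).trans_eq ?_
    · simp only [Finset.mem_sdiff, mem_filter, mem_Ioc] at hp
      exact Real.log_le_log (Nat.cast_pos.2 hp.1.2.pos) (Nat.cast_le.2 hp.1.1.2)
    · congr 3
      ext p
      simp only [primeRange, Finset.mem_sdiff, mem_filter, mem_Ioc]
      constructor
      · rintro ⟨⟨⟨h, h'⟩, hp⟩, hn⟩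
        exact ⟨⟨not_le.1 fun hh => hn ⟨⟨h, hh⟩, hp⟩, h'⟩, hp⟩
      · rintro ⟨⟨h, h'⟩, hp⟩
        exact ⟨⟨⟨by omega, h'⟩, hp⟩, fun hn => absurd hn.1.2 (not_le.2 h)⟩
  have hlog2 : Real.log (2 * Q) ≤ (Q : ℝ) ^ ε / 2 := by
    rw [Real.log_mul two_ne_zero (by linarith)]
    have := Real.log_le_log two_pos hQR
    rw [Real.norm_of_nonneg (Real.log_nonneg (by linarith)),
      Real.norm_of_nonneg (by positivity)] at h3
    linarith
  have hA := hdiff.trans (mul_le_mul_of_nonneg_left hlog2 (Nat.cast_nonneg _))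
  rw [Real.rpow_sub (by linarith), Real.rpow_one, div_le_iff₀ (by positivity)]
  linarith

theorem eventually_isGoodScale {τ s ℓ : ℝ} (hs0 : 0 < s) (hs1 : s < 1) (hsτ : τ * s < 2)
    (hℓ : 0 < ℓ) : ∀ᶠ Q : ℕ in atTop, IsGoodScale τ s ℓ Q := by
  set ε : ℝ := min (1 - s) (2 - τ * s) / 2 with hεdef
  have hmin : 0 < min (1 - s) (2 - τ * s) := lt_min (by linarith) (by linarith)
  have hε : 0 < ε := half_pos hmin
  have he1 : 0 < 2 - ε - (1 + s) := by linarith [min_le_left (1 - s) (2 - τ * s)]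
  have he2 : 0 < 2 - ε - τ * s := by linarith [min_le_right (1 - s) (2 - τ * s)]
  set w : ℝ := (1 / (4 * (2 : ℝ) ^ τ)) ^ s with hwdef
  have hw : 0 < w := by positivity
  have hcast := tendsto_natCast_atTop_atTop (R := ℝ)
  filter_upwards [eventually_card_primeRange hε, eventually_ge_atTop 2,
    hcast.eventually (eventually_ge_atTop (8 / ℓ)),
    ((tendsto_rpow_atTop he1).comp hcast).eventually (eventually_ge_atTop (4 / ℓ)),
    ((tendsto_rpow_atTop he2).comp hcast).eventually (eventually_ge_atTop (4 / (ℓ * w)))]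
    with Q hA hQ hbig h1 h2
  simp only [Function.comp_apply] at h1 h2
  have hQR : (0 : ℝ) < Q := by exact_mod_cast (by omega : 0 < Q)
  have hbig' : 8 ≤ ℓ * Q := by
    rw [div_le_iff₀ hℓ] at hbig
    linarith
  have hL : ℓ * Q / 4 ≤ (childCount ℓ Q : ℝ) := by
    have := Nat.lt_floor_add_one (ℓ * Q / 2)
    rw [childCount]
    linarith
  have hN : ℓ / 4 * (Q : ℝ) ^ (2 - ε) ≤ branching ℓ Q := by
    rw [branching, Nat.cast_mul, show 2 - ε = (1 - ε) + 1 by ring, Real.rpow_add hQR,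
      Real.rpow_one]
    calc ℓ / 4 * ((Q : ℝ) ^ (1 - ε) * Q) = (Q : ℝ) ^ (1 - ε) * (ℓ * Q / 4) := by ring
      _ ≤ _ := mul_le_mul hA hL (by positivity) (Nat.cast_nonneg _)
  refine ⟨hQ, hbig', ?_, ?_⟩
  · have hwid : width τ Q ^ s = w * ((Q : ℝ) ^ (τ * s))⁻¹ := by
      rw [width, Real.mul_rpow two_pos.le hQR.le, ← mul_assoc, ← div_div,
        Real.div_rpow (by positivity) (by positivity), ← Real.rpow_mul hQR.le, hwdef,
        div_eq_mul_inv]
    rw [Real.rpow_sub hQR, le_div_iff₀ (by positivity)] at h2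
    refine le_trans ?_
      (mul_le_mul_of_nonneg_right hN (Real.rpow_nonneg (width_pos (by omega)).le _))
    rw [hwid]
    rw [div_mul_eq_mul_div, div_le_iff₀ (by positivity)] at h2
    field_simp
    linarith
  · refine le_trans ?_ hN
    rw [Real.rpow_sub hQR, le_div_iff₀ (by positivity)] at h1
    rw [div_mul_eq_mul_div, div_le_iff₀ hℓ] at h1
    linarith

/-- The parameters of the tree. -/
structure Scales (τ s : ℝ) where
  /-- The half-width of the intervals at each level. -/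
  r : ℕ → ℝ
  /-- The denominators used at each level. -/
  Q : ℕ → ℕ
  r_zero : r 0 = 1 / 2
  r_succ : ∀ n, r (n + 1) = width τ (Q n)
  good : ∀ n, IsGoodScale τ s (r n) (Q n)
  lt_Q : ∀ n, n < Q n

theorem exists_scales {τ s : ℝ} (hs0 : 0 < s) (hs1 : s < 1) (hsτ : τ * s < 2) :
    Nonempty (Scales τ s) := by
  choose F hF using fun (n : ℕ) (ℓ : {ℓ : ℝ // 0 < ℓ}) =>
    ((eventually_isGoodScale hs0 hs1 hsτ ℓ.2).and (eventually_gt_atTop n)).exists
  let R : ℕ → {ℓ : ℝ // 0 < ℓ} := fun n =>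
    Nat.rec ⟨1 / 2, by norm_num⟩
      (fun n ℓ => ⟨width τ (F n ℓ), width_pos (hF n ℓ).1.pos⟩) n
  exact ⟨⟨fun n => (R n).1, fun n => F n (R n), rfl, fun n => rfl,
    fun n => (hF n (R n)).1, fun n => (hF n (R n)).2⟩⟩

namespace Scales

variable {τ s : ℝ} (S : Scales τ s)

/-- The number of children at each level. -/
def N (n : ℕ) : ℕ := branching (S.r n) (S.Q n)

/-- The centres of the intervals of level `n`. -/
def T : ℕ → Finset ℝ
  | 0 => {1 / 2}
  | n + 1 => (T n).biUnion (children τ (S.r n) (S.Q n))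

/-- The centres of level `n + j` below a centre of level `n`. -/
def desc (n : ℕ) : ℕ → ℝ → Finset ℝ
  | 0, c => {c}
  | j + 1, c => (desc n j c).biUnion (children τ (S.r (n + j)) (S.Q (n + j)))

theorem r_pos : ∀ n, 0 < S.r n
  | 0 => by rw [S.r_zero]; norm_num
  | n + 1 => by rw [S.r_succ]; exact width_pos (S.good n).pos

theorem r_succ_le (hτ : 2 ≤ τ) (n : ℕ) : S.r (n + 1) ≤ S.r n / 4 :=
  (S.r_succ n).trans_le ((S.good n).width_le_quarter hτ)

theorem tendsto_r (hτ : 2 ≤ τ) : Tendsto S.r atTop (𝓝 0) := by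
  refine squeeze_zero (fun n => (S.r_pos n).le) (fun n => ?_)
    (by simpa using (tendsto_pow_atTop_nhds_zero_of_lt_one (by norm_num : (0 : ℝ) ≤ 1 / 4)
      (by norm_num)).const_mul (1 / 2 : ℝ))
  induction n with
  | zero => rw [S.r_zero]; norm_num
  | succ n ih =>
    rw [pow_succ, mul_inv, ← mul_assoc]
    linarith [S.r_succ_le hτ n]

theorem mem_T_bounds (hτ : 2 ≤ τ) : ∀ n, ∀ c ∈ S.T n, S.r n ≤ c ∧ c ≤ 1 - S.r n
  | 0, c, hc => by
    rw [T, mem_singleton] at hc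
    rw [hc, S.r_zero]
    norm_num
  | n + 1, x, hx => by
    rw [T, mem_biUnion] at hx
    obtain ⟨c, hc, hx⟩ := hx
    obtain ⟨h1, h2⟩ := mem_T_bounds hτ n c hc
    obtain ⟨h3, h4⟩ := abs_le.1 (abs_sub_le_of_mem_children hτ (S.r_pos n) (S.good n) hx)
    rw [S.r_succ]
    constructor <;> linarith

theorem isLevelPoint (hτ : 2 ≤ τ) {n : ℕ} {x : ℝ} (hx : x ∈ S.T (n + 1)) :
    IsLevelPoint (S.Q n) x := by
  rw [T, mem_biUnion] at hx
  obtain ⟨c, hc, hx⟩ := hx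
  obtain ⟨h1, h2⟩ := S.mem_T_bounds hτ n c hc
  exact isLevelPoint_of_mem_children hτ (S.r_pos n) (S.good n) h1 h2 hx

theorem separated (hτ : 2 ≤ τ) :
    ∀ n, ∀ x ∈ S.T n, ∀ y ∈ S.T n, x ≠ y → 4 * S.r n ≤ |x - y|
  | 0, x, hx, y, hy, hne => by
    rw [T, mem_singleton] at hx hy
    exact absurd (hx.trans hy.symm) hne
  | n + 1, x, hx, y, hy, hne => by
    rw [S.r_succ]
    exact (width_le hτ (S.good n).pos).trans
      ((S.isLevelPoint hτ hx).separated (S.isLevelPoint hτ hy) hne)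

theorem card_T_succ (hτ : 2 ≤ τ) (n : ℕ) : (S.T (n + 1)).card = (S.T n).card * S.N n := by
  rw [T, card_biUnion, sum_congr rfl fun c hc => card_children hτ (S.r_pos n) (S.good n)
    (S.mem_T_bounds hτ n c hc).1 (S.mem_T_bounds hτ n c hc).2, sum_const, smul_eq_mul]
  · rfl
  · intro c hc c' hc' hne
    simp only [Function.onFun, disjoint_left]
    intro x hx hx'
    have h1 := abs_le.1 (abs_sub_le_of_mem_children hτ (S.r_pos n) (S.good n) hx)
    have h2 := abs_le.1 (abs_sub_le_of_mem_children hτ (S.r_pos n) (S.good n) hx')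
    have h3 := S.separated hτ n c hc c' hc' hne
    have h4 := width_pos (τ := τ) (S.good n).pos
    have h5 : |c - c'| ≤ 2 * S.r n := abs_le.2 ⟨by linarith, by linarith⟩
    linarith [S.r_pos n]

theorem T_add (n : ℕ) : ∀ j, S.T (n + j) = (S.T n).biUnion (S.desc n j)
  | 0 => by
    simp only [desc]
    exact (biUnion_singleton_eq_self).symm
  | j + 1 => by
    rw [show n + (j + 1) = n + j + 1 from rfl, T, T_add n j, biUnion_biUnion]
    rfl

theorem abs_sub_le_of_mem_desc (hτ : 2 ≤ τ) (n : ℕ) :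
    ∀ j c, ∀ x ∈ S.desc n j c, |x - c| ≤ S.r n - S.r (n + j)
  | 0, c, x, hx => by
    rw [desc, mem_singleton] at hx
    simp [hx]
  | j + 1, c, x, hx => by
    rw [desc, mem_biUnion] at hx
    obtain ⟨y, hy, hx⟩ := hx
    have h1 := abs_sub_le_of_mem_desc hτ n j c y hy
    have h2 := abs_sub_le_of_mem_children hτ (S.r_pos _) (S.good _) hx
    rw [show n + (j + 1) = n + j + 1 from rfl, S.r_succ]
    have := abs_sub_le x y c
    linarith

theorem card_desc_le (n : ℕ) :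
    ∀ j c, (S.desc n j c).card ≤ ∏ i ∈ range j, S.N (n + i)
  | 0, c => by simp [desc]
  | j + 1, c => by
    rw [desc, prod_range_succ]
    refine (card_biUnion_le_card_mul _ _ (S.N (n + j)) fun x _ => ?_).trans
      (Nat.mul_le_mul_right _ (card_desc_le n j c))
    exact card_image_le.trans_eq (by rw [card_product, card_range]; rfl)

theorem card_T_add (hτ : 2 ≤ τ) (n : ℕ) :
    ∀ j, (S.T (n + j)).card = (S.T n).card * ∏ i ∈ range j, S.N (n + i)
  | 0 => by simp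
  | j + 1 => by
    rw [show n + (j + 1) = n + j + 1 from rfl, S.card_T_succ hτ, card_T_add hτ n j,
      prod_range_succ, mul_assoc]

theorem one_le_card : ∀ n, 2 ≤ τ → 1 ≤ (S.T n).card
  | 0, _ => by simp [T]
  | n + 1, hτ => by
    rw [S.card_T_succ hτ]
    have h : 0 < S.N n := by
      rcases Nat.eq_zero_or_pos (S.N n) with h | h
      · have := (S.good n).mass
        rw [← N, h] at this
        norm_num at this
      · exact h
    exact Nat.mul_pos (one_le_card n hτ) h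

theorem half_le_mass (hτ : 2 ≤ τ) (hs1 : s ≤ 1) :
    ∀ n, 1 / 2 ≤ S.r n ^ s * (S.T n).card
  | 0 => by
    rw [S.r_zero, T, card_singleton, Nat.cast_one, mul_one]
    exact Real.self_le_rpow_of_le_one (by norm_num) (by norm_num) hs1
  | n + 1 => by
    rw [S.card_T_succ hτ, S.r_succ, Nat.cast_mul]
    calc (1 / 2 : ℝ) ≤ 1 * 1 := by norm_num
      _ ≤ ((S.N n : ℝ) * width τ (S.Q n) ^ s) * (S.T n).card :=
          mul_le_mul (S.good n).mass (mod_cast S.one_le_card n hτ) zero_le_one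
            (le_trans zero_le_one (S.good n).mass)
      _ = _ := by ring

end Scales

end FA.JarnikBesicovitch
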