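import Mathlib.Topology.MetricSpace.HausdorffDimension
import Mathlib.NumberTheory.Transcendental.Liouville.LiouvilleWith
import Mathlib.Analysis.PSeries

/-!
# Well approximable numbers: the upper bound for the Hausdorff dimension

The reals that have, for infinitely many `q`, a fraction with denominator `q` at distance
less than `C / q ^ τ` are covered, for every `N`, by `O(q)` intervals of length `2 C / q ^ τ`
for each `q > N`, so their Hausdorff dimension is at most `2 / τ`.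
-/

set_option autoImplicit false

noncomputable section

open Filter Topology Set MeasureTheory Measure Metric
open scoped ENNReal NNReal

namespace FA.JarnikBesicovitch

/-- The reals with infinitely many rationals `r` at distance less than `r.den ^ (-τ)`. -/
def wellApprox (τ : ℝ) : Set ℝ :=
  {x | {r : ℚ | |x - r| < 1 / (r.den : ℝ) ^ τ}.Infinite}

/-- The reals `x` such that `|x - m / q| < C / q ^ τ` for infinitely many `q`. -/
def approxSet (τ : ℝ) (C : ℕ) : Set ℝ :=
  {x | ∃ᶠ q : ℕ in atTop, ∃ m : ℤ, |x - m / q| < C / (q : ℝ) ^ τ}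

theorem finite_rat_near (x : ℝ) (N : ℕ) :
    {r : ℚ | r.den < N ∧ |(r : ℝ)| ≤ |x| + 1}.Finite := by
  refine ((Finset.Icc (-(⌈(|x| + 1) * N⌉₊ : ℤ)) ⌈(|x| + 1) * N⌉₊ ×ˢ Finset.range N).image
    fun p : ℤ × ℕ => (p.1 / p.2 : ℚ)).finite_toSet.subset ?_
  rintro r ⟨hd, hr⟩
  have hnum : |(r.num : ℝ)| ≤ (|x| + 1) * N := by
    have h1 : (r : ℝ) * r.den = r.num := by exact_mod_cast Rat.mul_den_eq_num r
    rw [← h1, abs_mul, Nat.abs_cast]
    exact mul_le_mul hr (mod_cast hd.le) (Nat.cast_nonneg _) (by positivity)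
  have hnum' : |r.num| ≤ (⌈(|x| + 1) * N⌉₊ : ℤ) := by
    exact_mod_cast hnum.trans (Nat.le_ceil _)
  exact Finset.mem_image.2 ⟨(r.num, r.den),
    Finset.mem_product.2 ⟨Finset.mem_Icc.2 (abs_le.1 hnum'), Finset.mem_range.2 hd⟩,
    Rat.num_div_den r⟩

theorem wellApprox_subset {τ : ℝ} (hτ : 0 ≤ τ) :
    wellApprox τ ⊆ {x | LiouvilleWith τ x} := by
  intro x hx
  refine ⟨1, frequently_atTop.2 fun N => ?_⟩
  by_contra! hcon
  refine hx (((finite_rat_near x N).union ((subsingleton_singleton (a := x)).preimage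
    (Rat.cast_injective (α := ℝ))).finite).subset fun r hr => ?_)
  simp only [Set.mem_ofPred_eq] at hr
  by_cases h : (r : ℝ) = x
  · exact Or.inr h
  · refine Or.inl ⟨lt_of_not_ge fun hN => ?_, ?_⟩
    · have e : (r : ℝ) = (r.num : ℝ) / (r.den : ℝ) := Rat.cast_def r
      rw [e] at h hr
      exact absurd hr (not_lt.2 (hcon r.den hN r.num (Ne.symm h)))
    · have h1 : 1 / (r.den : ℝ) ^ τ ≤ 1 := by
        rw [div_le_one (by positivity)]
        exact Real.one_le_rpow (mod_cast r.pos) hτ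
      have := abs_sub_abs_le_abs_sub (r : ℝ) x
      rw [abs_sub_comm] at this
      linarith

theorem liouvilleWith_subset_iUnion (τ : ℝ) :
    {x | LiouvilleWith τ x} ⊆ ⋃ C : ℕ, approxSet τ C := by
  rintro x ⟨C, hC⟩
  refine mem_iUnion.2 ⟨⌈C⌉₊, hC.mono fun q ⟨m, _, hm⟩ => ⟨m, hm.trans_le ?_⟩⟩
  gcongr
  exact Nat.le_ceil C

/-- The Hausdorff measure of order `s > 2 / τ` of a bounded piece of `approxSet τ C` is zero. -/
theorem hausdorffMeasure_approxSet {τ s : ℝ} (hτ : 0 < τ) (hs : 2 / τ < s) (C K : ℕ) :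
    μH[s] (approxSet τ C ∩ Icc (-(K : ℝ)) K) = 0 := by
  have hs0 : 0 < s := (div_pos two_pos hτ).trans hs
  have hexp : 1 - τ * s < -1 := by
    rw [div_lt_iff₀ hτ] at hs
    linarith [mul_comm τ s]
  set B : ℕ := K + C
  set g : ℕ → ℝ := fun q =>
    (2 * (B : ℝ) + 1) * (2 * (C : ℝ)) ^ s * (q : ℝ) ^ (1 - τ * s)
  have hg : Summable g := (Real.summable_nat_rpow.2 hexp).mul_left _
  have hg0 : ∀ q, 0 ≤ g q := fun q => by positivity
  have hne : ∑' q, ENNReal.ofReal (g q) ≠ ∞ := by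
    rw [← ENNReal.ofReal_tsum_of_nonneg hg0 hg]
    exact ENNReal.ofReal_ne_top
  set t : ℕ → ℕ × ℕ → Set ℝ := fun n p =>
    if p.2 < 2 * B * (n + 1 + p.1) + 1 then
      Icc (((p.2 : ℝ) - (B * (n + 1 + p.1) : ℕ)) / (n + 1 + p.1 : ℕ) -
          C / ((n + 1 + p.1 : ℕ) : ℝ) ^ τ)
        (((p.2 : ℝ) - (B * (n + 1 + p.1) : ℕ)) / (n + 1 + p.1 : ℕ) +
          C / ((n + 1 + p.1 : ℕ) : ℝ) ^ τ)
    else ∅
  have hdiam : ∀ n p, ediam (t n p) ≤
      ENNReal.ofReal (2 * C / ((n + 1 + p.1 : ℕ) : ℝ) ^ τ) := by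
    intro n p
    simp only [t]
    split_ifs
    · rw [Real.ediam_Icc]
      exact ENNReal.ofReal_le_ofReal (by ring_nf; rfl)
    · simp
  have hr : Tendsto (fun n : ℕ => ENNReal.ofReal (2 * C / ((n + 1 : ℕ) : ℝ) ^ τ)) atTop
      (𝓝 0) := by
    rw [← ENNReal.ofReal_zero]
    exact ENNReal.tendsto_ofReal (((tendsto_rpow_atTop hτ).comp
      (tendsto_natCast_atTop_atTop.comp (tendsto_add_atTop_nat 1))).const_div_atTop _)
  have hsum : ∀ n : ℕ, ∑' p, ediam (t n p) ^ s ≤
      ∑' i, ENNReal.ofReal (g (i + (n + 1))) := by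
    intro n
    rw [ENNReal.tsum_prod']
    refine ENNReal.tsum_le_tsum fun i => ?_
    set q : ℕ := n + 1 + i with hq
    have hq1 : 1 ≤ q := by omega
    have hqR : (0 : ℝ) < q := by exact_mod_cast hq1
    rw [show i + (n + 1) = q by omega, tsum_eq_sum (s := Finset.range (2 * B * q + 1))]
    · refine (Finset.sum_le_card_nsmul _ _
        (ENNReal.ofReal ((2 * C / (q : ℝ) ^ τ) ^ s)) fun j _ => ?_).trans ?_
      · rw [← ENNReal.ofReal_rpow_of_nonneg (by positivity) hs0.le]
        exact ENNReal.rpow_le_rpow (hdiam n (i, j)) hs0.le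
      · rw [Finset.card_range, nsmul_eq_mul, ← ENNReal.ofReal_natCast,
          ← ENNReal.ofReal_mul (by positivity)]
        refine ENNReal.ofReal_le_ofReal ?_
        simp only [g]
        rw [Real.div_rpow (by positivity) (by positivity), ← Real.rpow_mul hqR.le,
          Real.rpow_sub hqR, Real.rpow_one]
        have h1 : ((2 * B * q + 1 : ℕ) : ℝ) ≤ (2 * (B : ℝ) + 1) * q := by
          have : (1 : ℝ) ≤ q := by exact_mod_cast hq1
          push_cast
          linarith
        calc ((2 * B * q + 1 : ℕ) : ℝ) * ((2 * C) ^ s / (q : ℝ) ^ (τ * s))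
            ≤ ((2 * (B : ℝ) + 1) * q) * ((2 * C) ^ s / (q : ℝ) ^ (τ * s)) :=
              mul_le_mul_of_nonneg_right h1 (by positivity)
          _ = _ := by ring
    · intro j hj
      rw [Finset.mem_range] at hj
      have he : t n (i, j) = ∅ := if_neg hj
      simp [he, hs0]
  have hlim : Tendsto (fun n => ∑' p, ediam (t n p) ^ s) atTop (𝓝 0) :=
    tendsto_of_tendsto_of_tendsto_of_le_of_le tendsto_const_nhds
      ((ENNReal.tendsto_sum_nat_add _ hne).comp (tendsto_add_atTop_nat 1))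
      (fun _ => zero_le) hsum
  refine le_antisymm ?_ zero_le
  rw [← hlim.liminf_eq]
  refine hausdorffMeasure_le_liminf_tsum (ι := fun _ => ℕ × ℕ) s _ _ hr t
    (Eventually.of_forall fun n p => (hdiam n p).trans (ENNReal.ofReal_le_ofReal ?_))
    (Eventually.of_forall fun n x hx => ?_)
  · exact div_le_div_of_nonneg_left (by positivity) (by positivity)
      (Real.rpow_le_rpow (by positivity) (mod_cast Nat.le_add_right (n + 1) p.1) hτ.le)
  · obtain ⟨hxA, hxK⟩ := hx
    obtain ⟨q, hq, m, hm⟩ := frequently_atTop.1 hxA (n + 1)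
    have hqR : (1 : ℝ) ≤ q := by exact_mod_cast (by omega : 1 ≤ q)
    have hC : (C : ℝ) / (q : ℝ) ^ τ ≤ C :=
      div_le_self (Nat.cast_nonneg C) (Real.one_le_rpow hqR hτ.le)
    have hmB : |(m : ℝ)| ≤ (B * q : ℕ) := by
      have h1 : |(m : ℝ) / q| ≤ B := by
        have := abs_sub_abs_le_abs_sub ((m : ℝ) / q) x
        rw [abs_sub_comm] at this
        have := abs_le.2 ⟨hxK.1, hxK.2⟩
        push_cast [B]
        linarith
      rw [abs_div, Nat.abs_cast, div_le_iff₀ (by linarith)] at h1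
      exact_mod_cast h1
    have hmB' : |m| ≤ ((B * q : ℕ) : ℤ) := by exact_mod_cast hmB
    obtain ⟨j, hj⟩ : ∃ j : ℕ, (j : ℤ) = m + (B * q : ℕ) :=
      ⟨(m + (B * q : ℕ)).toNat, Int.toNat_of_nonneg (by linarith [(abs_le.1 hmB').1])⟩
    have hjlt : j < 2 * B * q + 1 := by
      have := (abs_le.1 hmB').2
      rw [mul_assoc]
      generalize B * q = P at hj this ⊢
      omega
    refine mem_iUnion.2 ⟨(q - (n + 1), j), ?_⟩
    have hqe : n + 1 + (q - (n + 1)) = q := by omega
    have hjR : (j : ℝ) = m + (B * q : ℕ) := by exact_mod_cast hj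
    simp only [t, hqe, hjlt, ↓reduceIte, hjR, add_sub_cancel_right]
    rw [abs_lt] at hm
    constructor <;> linarith

theorem dimH_approxSet_le {τ : ℝ} (hτ : 0 < τ) (C : ℕ) :
    dimH (approxSet τ C) ≤ ENNReal.ofReal (2 / τ) := by
  refine (dimH_mono (fun x hx => ?_ :
    approxSet τ C ⊆ ⋃ K : ℕ, approxSet τ C ∩ Icc (-(K : ℝ)) K)).trans ?_
  · exact mem_iUnion.2 ⟨⌈|x|⌉₊, hx, abs_le.1 (Nat.le_ceil |x|)⟩
  rw [dimH_iUnion]
  refine iSup_le fun K => dimH_le fun d hd => le_of_not_gt fun hlt => ?_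
  have h : 2 / τ < (d : ℝ) := by
    rw [← ENNReal.ofReal_coe_nnreal] at hlt
    exact ((ENNReal.ofReal_lt_ofReal_iff').1 hlt).1
  simp [hausdorffMeasure_approxSet hτ h C K] at hd

/-- **Jarník's upper bound**: the set of reals that are Liouville with exponent `τ` has
Hausdorff dimension at most `2 / τ`. -/
theorem dimH_liouvilleWith_le {τ : ℝ} (hτ : 0 < τ) :
    dimH {x : ℝ | LiouvilleWith τ x} ≤ ENNReal.ofReal (2 / τ) :=
  (dimH_mono (liouvilleWith_subset_iUnion τ)).trans
    ((dimH_iUnion _).trans_le (iSup_le (dimH_approxSet_le hτ)))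

theorem dimH_wellApprox_le {τ : ℝ} (hτ : 0 < τ) :
    dimH (wellApprox τ) ≤ ENNReal.ofReal (2 / τ) :=
  (dimH_mono (wellApprox_subset hτ.le)).trans (dimH_liouvilleWith_le hτ)

/-- The Liouville numbers have Hausdorff dimension zero. -/
theorem dimH_liouville : dimH {x : ℝ | Liouville x} = 0 := by
  refine le_antisymm ?_ zero_le
  have hlim : Tendsto (fun n : ℕ => ENNReal.ofReal (2 / ((n : ℝ) + 1))) atTop (𝓝 0) := by
    rw [← ENNReal.ofReal_zero]
    exact ENNReal.tendsto_ofReal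
      ((tendsto_atTop_add_const_right atTop 1 tendsto_natCast_atTop_atTop).const_div_atTop 2)
  exact ge_of_tendsto hlim (Eventually.of_forall fun n =>
    (dimH_mono fun x hx => (hx.liouvilleWith _ : LiouvilleWith ((n : ℝ) + 1) x)).trans
      (dimH_liouvilleWith_le (by positivity)))

end FA.JarnikBesicovitch
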