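import Mathlib.Topology.MetricSpace.HausdorffDimension
import Fermat.Agent.JarnikBesicovitch.Tree
import Fermat.Agent.JarnikBesicovitch.Upper

/-!
# Well approximable numbers: the lower bound for the Hausdorff dimension

A share at most `72 δ ^ s` of the centres of a deep level of the tree lies in any interval
of length `δ`, so the limit set, which consists of well approximable numbers, has positive
`s`-dimensional measure.
-/

set_option autoImplicit false

noncomputable section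

open Finset Filter Topology MeasureTheory Measure Metric
open scoped ENNReal NNReal

namespace FA.JarnikBesicovitch

/-- A separated finite subset of an interval of length `w` is small. -/
theorem card_le_of_separated {S : Finset ℝ} {u w g : ℝ} (hg : 0 < g) (hw : 0 ≤ w)
    (hS : ∀ x ∈ S, u ≤ x ∧ x ≤ u + w) (hsep : ∀ x ∈ S, ∀ y ∈ S, x ≠ y → g ≤ |x - y|) :
    (S.card : ℝ) ≤ w / g + 1 := by
  have hcard : S.card ≤ (range (⌊w / g⌋₊ + 1)).card := by
    refine card_le_card_of_injOn (fun x => ⌊(x - u) / g⌋₊) (fun x hx => ?_) fun x hx y hy he => ?_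
    · simp only [coe_range, Set.mem_Iio]
      refine Nat.lt_succ_of_le (Nat.floor_le_floor ?_)
      gcongr
      linarith [(hS x hx).2]
    · by_contra hne
      have h := hsep x hx y hy hne
      have hxu : 0 ≤ (x - u) / g := div_nonneg (by linarith [(hS x hx).1]) hg.le
      have hyu : 0 ≤ (y - u) / g := div_nonneg (by linarith [(hS y hy).1]) hg.le
      have e : (⌊(x - u) / g⌋₊ : ℝ) = ⌊(y - u) / g⌋₊ := by exact_mod_cast he
      have h1 := Nat.floor_le hxu
      have h2 := Nat.lt_floor_add_one ((x - u) / g)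
      have h3 := Nat.floor_le hyu
      have h4 := Nat.lt_floor_add_one ((y - u) / g)
      have h5 : |(x - u) / g - (y - u) / g| < 1 := abs_lt.2 ⟨by linarith, by linarith⟩
      rw [← sub_div, abs_div, abs_of_pos hg, div_lt_one hg, sub_sub_sub_cancel_right] at h5
      linarith
  rw [card_range] at hcard
  have := Nat.floor_le (div_nonneg hw hg.le)
  have hR : (S.card : ℝ) ≤ ⌊w / g⌋₊ + 1 := by exact_mod_cast hcard
  linarith

/-- The fractions with denominator a prime in `(Q, 2Q]` in a window of length `w ≥ 1 / Q`. -/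
theorem card_le_of_isLevelPoint {S : Finset ℝ} {Q : ℕ} {u w : ℝ} (hw : 0 ≤ w)
    (hwQ : 1 ≤ w * Q) (hlev : ∀ x ∈ S, IsLevelPoint Q x)
    (hS : ∀ x ∈ S, u ≤ x ∧ x ≤ u + w) :
    (S.card : ℝ) ≤ 3 * w * Q * (primeRange Q).card := by
  have hsub : S ⊆ (primeRange Q).biUnion fun q : ℕ =>
      (Finset.Icc ⌈u * q⌉ ⌊(u + w) * q⌋).image fun p : ℤ => (p : ℝ) / q := by
    intro x hx
    obtain ⟨q, hq, p, -, -, rfl⟩ := hlev x hx
    obtain ⟨h1, h2⟩ := hS _ hx
    have hq0 : (0 : ℝ) < q := Nat.cast_pos.2 (mem_primeRange hq).1.pos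
    refine mem_biUnion.2 ⟨q, hq, mem_image.2 ⟨p, Finset.mem_Icc.2 ⟨?_, ?_⟩, by simp⟩⟩
    · rw [Int.ceil_le, Int.cast_natCast]
      rwa [le_div_iff₀ hq0] at h1
    · rw [Int.le_floor, Int.cast_natCast]
      rwa [div_le_iff₀ hq0] at h2
  have hbound : ∀ q ∈ primeRange Q,
      (((Finset.Icc ⌈u * q⌉ ⌊(u + w) * q⌋).image fun p : ℤ => (p : ℝ) / q).card : ℝ) ≤
        3 * w * Q := by
    intro q hq
    refine (Nat.cast_le.2 card_image_le).trans ?_
    rw [Int.card_Icc]
    have hq2 : (q : ℝ) ≤ 2 * Q := by exact_mod_cast (mem_primeRange hq).2.2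
    have h1 := Int.floor_le ((u + w) * q)
    have h2 := Int.le_ceil (u * q)
    have h4 : w * q ≤ w * (2 * Q) := mul_le_mul_of_nonneg_left hq2 hw
    rcases le_or_gt (⌊(u + w) * q⌋ + 1 - ⌈u * q⌉) 0 with h | h
    · rw [Int.toNat_of_nonpos h, Nat.cast_zero]
      positivity
    · have e : (((⌊(u + w) * q⌋ + 1 - ⌈u * q⌉).toNat : ℕ) : ℝ) =
          ((⌊(u + w) * q⌋ + 1 - ⌈u * q⌉ : ℤ) : ℝ) := by
        exact_mod_cast Int.toNat_of_nonneg h.le
      rw [e]
      push_cast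
      linarith
  calc (S.card : ℝ) ≤ ∑ q ∈ primeRange Q,
        (((Finset.Icc ⌈u * q⌉ ⌊(u + w) * q⌋).image fun p : ℤ => (p : ℝ) / q).card : ℝ) := by
        exact_mod_cast (card_le_card hsub).trans card_biUnion_le
    _ ≤ (primeRange Q).card • (3 * w * Q) := sum_le_card_nsmul _ _ _ hbound
    _ = _ := by rw [nsmul_eq_mul]; ring

namespace Scales

variable {τ s : ℝ} (S : Scales τ s)

/-- The count of the centres of level `n + 1` in a window of length `3 δ`. -/
theorem card_window_le (hτ : 2 ≤ τ) (hs0 : 0 < s) (hs1 : s < 1) {δ : ℝ} {n : ℕ}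
    (hδ1 : S.r (n + 1) ≤ δ) (hδ2 : δ < S.r n) (u : ℝ) :
    (((S.T (n + 1)).filter fun x => u ≤ x ∧ x ≤ u + 3 * δ).card : ℝ) ≤
      72 * δ ^ s * (S.T (n + 1)).card := by
  set F := (S.T (n + 1)).filter fun x => u ≤ x ∧ x ≤ u + 3 * δ
  have hF : ∀ x ∈ F, u ≤ x ∧ x ≤ u + 3 * δ := fun x hx => (mem_filter.1 hx).2
  have hlev : ∀ x ∈ F, IsLevelPoint (S.Q n) x := fun x hx =>
    S.isLevelPoint hτ (mem_filter.1 hx).1
  have hδ0 : 0 < δ := (S.r_pos _).trans_le hδ1
  have hQ : (0 : ℝ) < S.Q n := Nat.cast_pos.2 (S.good n).pos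
  have hsplit : δ ^ s * δ ^ (1 - s) = δ := by
    rw [← Real.rpow_add hδ0, add_sub_cancel, Real.rpow_one]
  have hδs : 0 ≤ δ ^ s := Real.rpow_nonneg hδ0.le s
  have hcard : ((S.T (n + 1)).card : ℝ) = (S.T n).card * (S.N n : ℝ) := by
    rw [S.card_T_succ hτ, Nat.cast_mul]
  have h1T : (1 : ℝ) ≤ (S.T n).card := mod_cast S.one_le_card n hτ
  rw [hcard]
  rcases le_or_gt 1 (3 * δ * S.Q n) with hbig | hsmall
  · have h1 := card_le_of_isLevelPoint (by linarith) hbig hlev hF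
    have h2 : δ ^ (1 - s) ≤ 2 * S.r n * (S.T n).card := by
      calc δ ^ (1 - s) ≤ S.r n ^ (1 - s) :=
            Real.rpow_le_rpow hδ0.le hδ2.le (by linarith)
        _ ≤ S.r n ^ (1 - s) * (2 * (S.r n ^ s * (S.T n).card)) :=
            le_mul_of_one_le_right (Real.rpow_nonneg (S.r_pos n).le _)
              (by linarith [S.half_le_mass hτ hs1.le n])
        _ = 2 * (S.r n ^ (1 - s) * S.r n ^ s) * (S.T n).card := by ring
        _ = _ := by rw [← Real.rpow_add (S.r_pos n), sub_add_cancel, Real.rpow_one]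
    have h3 : δ ≤ δ ^ s * (2 * S.r n * (S.T n).card) :=
      hsplit.ge.trans (mul_le_mul_of_nonneg_left h2 hδs)
    have h4 := mul_le_mul_of_nonneg_left (S.good n).le_childCount
      (Nat.cast_nonneg (α := ℝ) (primeRange (S.Q n)).card)
    calc (F.card : ℝ) ≤ 3 * (3 * δ) * S.Q n * (primeRange (S.Q n)).card := h1
      _ ≤ 3 * (3 * (δ ^ s * (2 * S.r n * (S.T n).card))) * S.Q n *
          (primeRange (S.Q n)).card := by gcongr
      _ = 72 * δ ^ s * (S.T n).card * ((primeRange (S.Q n)).card *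
          (S.r n * S.Q n / 4)) := by ring
      _ ≤ 72 * δ ^ s * (S.T n).card * ((primeRange (S.Q n)).card *
          (childCount (S.r n) (S.Q n) : ℝ)) :=
          mul_le_mul_of_nonneg_left h4 (by positivity)
      _ = _ := by simp only [N, branching, Nat.cast_mul]; ring
  · have h1 := card_le_of_separated (g := 1 / (4 * (S.Q n : ℝ) ^ 2)) (by positivity)
      (by linarith) hF fun x hx y hy hne => (hlev x hx).separated (hlev y hy) hne
    rw [div_div_eq_mul_div, div_one] at h1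
    have h2 : δ * (S.Q n : ℝ) ^ 2 ≤ δ ^ s * S.N n := by
      have hδQ : δ ≤ (S.Q n : ℝ)⁻¹ := by
        rw [← mul_le_mul_iff_of_pos_right hQ, inv_mul_cancel₀ hQ.ne']
        linarith [mul_pos hδ0 hQ]
      calc δ * (S.Q n : ℝ) ^ 2 = δ ^ s * (δ ^ (1 - s) * (S.Q n : ℝ) ^ 2) := by
            rw [← mul_assoc, hsplit]
        _ ≤ δ ^ s * (((S.Q n : ℝ)⁻¹) ^ (1 - s) * (S.Q n : ℝ) ^ 2) := by gcongr
        _ = δ ^ s * (S.Q n : ℝ) ^ (1 + s) := by
            rw [Real.inv_rpow hQ.le, ← Real.rpow_neg hQ.le, ← Real.rpow_two,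
              ← Real.rpow_add hQ]
            ring_nf
        _ ≤ _ := mul_le_mul_of_nonneg_left (S.good n).many hδs
    have h3 : 1 ≤ δ ^ s * S.N n := by
      refine (S.good n).mass.trans ?_
      rw [mul_comm, ← N]
      refine mul_le_mul_of_nonneg_right (Real.rpow_le_rpow ?_ ?_ hs0.le) (Nat.cast_nonneg _)
      · exact (width_pos (S.good n).pos).le
      · rwa [← S.r_succ]
    calc (F.card : ℝ) ≤ 13 * (δ ^ s * S.N n) := by linarith
      _ ≤ 72 * (δ ^ s * ((S.T n).card * S.N n)) :=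
          mul_le_mul (by norm_num) (mul_le_mul_of_nonneg_left
            (le_mul_of_one_le_left (Nat.cast_nonneg _) h1T) hδs) (by positivity) (by norm_num)
      _ = _ := by ring

/-- An interval of length `δ` holds a share at most `72 δ ^ s` of any deep level. -/
theorem eventually_card_le (hτ : 2 ≤ τ) (hs0 : 0 < s) (hs1 : s < 1) {δ : ℝ} (hδ0 : 0 < δ)
    (hδ : δ < 1 / 2) (a : ℝ) :
    ∀ᶠ M in atTop, (((S.T M).filter fun x => a ≤ x ∧ x ≤ a + δ).card : ℝ) ≤
      72 * δ ^ s * (S.T M).card := by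
  have hex : ∃ m, S.r m ≤ δ :=
    ((S.tendsto_r hτ).eventually (eventually_le_nhds hδ0)).exists
  obtain ⟨n, hn⟩ : ∃ n, Nat.find hex = n + 1 := Nat.exists_eq_succ_of_ne_zero fun h => by
    have h0 := Nat.find_spec hex
    rw [h, S.r_zero] at h0
    linarith
  have hδ1 : S.r (n + 1) ≤ δ := hn ▸ Nat.find_spec hex
  have hδ2 : δ < S.r n := not_le.1 (Nat.find_min hex (by omega))
  filter_upwards [eventually_ge_atTop (n + 1)] with M hM
  obtain ⟨j, rfl⟩ := Nat.exists_eq_add_of_le hM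
  set A := (S.T (n + 1)).filter fun x => a - δ ≤ x ∧ x ≤ a - δ + 3 * δ
  have hsub : ((S.T (n + 1 + j)).filter fun x => a ≤ x ∧ x ≤ a + δ) ⊆
      A.biUnion (S.desc (n + 1) j) := by
    intro x hx
    rw [mem_filter, S.T_add, mem_biUnion] at hx
    obtain ⟨⟨c, hc, hx⟩, hx1, hx2⟩ := hx
    have h := abs_le.1 (S.abs_sub_le_of_mem_desc hτ (n + 1) j c x hx)
    have := S.r_pos (n + 1 + j)
    exact mem_biUnion.2 ⟨c, mem_filter.2 ⟨hc, by linarith, by linarith⟩, hx⟩
  have hcard := (card_le_card hsub).trans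
    (card_biUnion_le_card_mul A _ _ fun c _ => S.card_desc_le (n + 1) j c)
  calc ((((S.T (n + 1 + j)).filter fun x => a ≤ x ∧ x ≤ a + δ).card : ℕ) : ℝ)
      ≤ (A.card : ℝ) * ((∏ i ∈ range j, S.N (n + 1 + i) : ℕ) : ℝ) := by exact_mod_cast hcard
    _ ≤ 72 * δ ^ s * (S.T (n + 1)).card * ((∏ i ∈ range j, S.N (n + 1 + i) : ℕ) : ℝ) :=
        mul_le_mul_of_nonneg_right (S.card_window_le hτ hs0 hs1 hδ1 hδ2 _) (Nat.cast_nonneg _)
    _ = _ := by rw [S.card_T_add hτ (n + 1) j, Nat.cast_mul, mul_assoc]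

/-- The union of the intervals of level `n`. -/
def V (n : ℕ) : Set ℝ := ⋃ c ∈ S.T n, Set.Icc (c - S.r n) (c + S.r n)

theorem isCompact_V (n : ℕ) : IsCompact (S.V n) :=
  (S.T n).finite_toSet.isCompact_biUnion fun _ _ => isCompact_Icc

theorem antitone_V (hτ : 2 ≤ τ) : Antitone S.V := by
  refine antitone_nat_of_succ_le fun n x hx => ?_
  simp only [V, T, Set.mem_iUnion, mem_biUnion, Set.mem_Icc] at hx ⊢
  obtain ⟨c, ⟨b, hb, hc⟩, h1, h2⟩ := hx
  have h := abs_le.1 (abs_sub_le_of_mem_children hτ (S.r_pos n) (S.good n) hc)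
  rw [S.r_succ] at h1 h2
  exact ⟨b, hb, by linarith, by linarith⟩

theorem iInter_V_subset (hτ : 2 ≤ τ) : ⋂ n, S.V n ⊆ wellApprox τ := by
  intro x hx
  refine Set.Infinite.of_image Rat.den (Set.infinite_of_forall_exists_gt fun B => ?_)
  have h := Set.mem_iInter.1 hx (B + 1)
  simp only [V, Set.mem_iUnion, Set.mem_Icc] at h
  obtain ⟨c, hc, h1, h2⟩ := h
  obtain ⟨q, hq, p, hp0, hp1, rfl⟩ := S.isLevelPoint hτ hc
  obtain ⟨hqp, hQq, hq2⟩ := mem_primeRange hq
  have hden : ((p : ℚ) / q).den = q := by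
    have hcop : Nat.Coprime p q :=
      (Nat.coprime_of_lt_prime hp0.ne' hp1 hqp).symm
    have := Rat.den_div_eq_of_coprime (a := (p : ℤ)) (b := (q : ℤ)) (mod_cast hqp.pos) hcop
    rw [Int.cast_natCast, Int.cast_natCast] at this
    exact Int.natCast_inj.1 this
  refine ⟨q, ⟨(p : ℚ) / q, ?_, hden⟩, (S.lt_Q B).trans hQq⟩
  rw [Set.mem_ofPred_eq, hden, Rat.cast_div, Rat.cast_natCast, Rat.cast_natCast]
  have hq0 : (0 : ℝ) < q := Nat.cast_pos.2 hqp.pos
  have hpow : (q : ℝ) ^ τ < 4 * (2 * (S.Q B : ℝ)) ^ τ := by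
    have h3 : (q : ℝ) ^ τ ≤ (2 * (S.Q B : ℝ)) ^ τ :=
      Real.rpow_le_rpow hq0.le (mod_cast hq2) (by linarith)
    have h4 := Real.rpow_pos_of_pos hq0 τ
    linarith
  rw [S.r_succ, width] at h1 h2
  refine lt_of_le_of_lt (abs_le.2 ⟨?_, ?_⟩ : |x - p / q| ≤ width τ (S.Q B))
    (one_div_lt_one_div_of_lt (Real.rpow_pos_of_pos hq0 τ) hpow)
  · rw [width]; linarith
  · rw [width]; linarith

end Scales

/-- The set of well approximable numbers has positive measure of every order `s < 2 / τ`. -/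
theorem hausdorffMeasure_wellApprox_ne_zero {τ s : ℝ} (hτ : 2 ≤ τ) (hs0 : 0 < s)
    (hsτ : τ * s < 2) : μH[s] (wellApprox τ) ≠ 0 := by
  have hs1 : s < 1 := by nlinarith
  obtain ⟨S⟩ := exists_scales hs0 hs1 hsτ
  suffices h : ENNReal.ofReal (1 / 144) ≤ μH[s] (wellApprox τ) by
    intro h0
    rw [h0, nonpos_iff_eq_zero, ENNReal.ofReal_eq_zero] at h
    norm_num at h
  rw [hausdorffMeasure_apply]
  refine le_iSup₂_of_le (ENNReal.ofReal (1 / 16)) (ENNReal.ofReal_pos.2 (by norm_num))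
    (le_iInf fun t => le_iInf fun hcov => le_iInf fun ht => ?_)
  refine ENNReal.le_of_forall_pos_le_add fun ε hε _ => ?_
  obtain ⟨e', he'pos, he'sum⟩ :=
    ENNReal.exists_pos_sum_of_countable (ENNReal.coe_ne_zero.2 hε.ne') ℕ
  set e : ℕ → ℝ := fun i => min (((e' i : ℝ)) ^ s⁻¹) (1 / 16) with hedef
  have he0 : ∀ i, 0 < e i := fun i =>
    lt_min (Real.rpow_pos_of_pos (NNReal.coe_pos.2 (he'pos i)) _) (by norm_num)
  have hepow : ∀ i, e i ^ s ≤ e' i := fun i =>
    (Real.rpow_le_rpow (he0 i).le (min_le_left _ _) hs0.le).trans_eq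
      (Real.rpow_inv_rpow (NNReal.coe_nonneg _) hs0.ne')
  set d : ℕ → ℝ := fun i => (ediam (t i)).toReal with hddef
  have htop : ∀ i, ediam (t i) ≠ ∞ := fun i =>
    ne_top_of_le_ne_top ENNReal.ofReal_ne_top (ht i)
  have hd : ∀ i, d i ≤ 1 / 16 := fun i => ENNReal.toReal_le_of_le_ofReal (by norm_num) (ht i)
  have hd0 : ∀ i, 0 ≤ d i := fun i => ENNReal.toReal_nonneg
  choose x hx using fun i => show ∃ x : ℝ, ∀ y ∈ t i, |y - x| ≤ d i from by
    rcases (t i).eq_empty_or_nonempty with h | ⟨x, hx⟩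
    · exact ⟨0, by simp [h]⟩
    · refine ⟨x, fun y hy => ?_⟩
      rw [← Real.dist_eq, dist_edist]
      exact ENNReal.toReal_mono (htop i) (edist_le_ediam_of_mem hy hx)
  set U : ℕ → Set ℝ := fun i => Set.Ioo (x i - (d i + e i)) (x i + (d i + e i)) with hUdef
  have hK : ⋂ n, S.V n ⊆ ⋃ i, U i := fun y hy => by
    obtain ⟨i, hi⟩ := Set.mem_iUnion.1 (hcov (S.iInter_V_subset hτ hy))
    have := abs_le.1 (hx i y hi)
    exact Set.mem_iUnion.2 ⟨i, by linarith [he0 i], by linarith [he0 i]⟩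
  have hUopen : ∀ i, IsOpen (U i) := fun i => isOpen_Ioo
  obtain ⟨M₀, hM₀⟩ := exists_subset_nhds_of_isCompact' (S.antitone_V hτ).directed_ge
    (fun n => S.isCompact_V n) (fun n => (S.isCompact_V n).isClosed)
    (fun y hy => (isOpen_iUnion hUopen).mem_nhds (hK hy))
  obtain ⟨I, hI⟩ := (S.isCompact_V M₀).elim_finite_subcover U hUopen hM₀
  have hev : ∀ᶠ M in atTop, ∀ i ∈ I,
      (((S.T M).filter fun y => x i - (d i + e i) ≤ y ∧
        y ≤ x i - (d i + e i) + 2 * (d i + e i)).card : ℝ) ≤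
        72 * (2 * (d i + e i)) ^ s * (S.T M).card :=
    (eventually_all_finset I).2 fun i _ => S.eventually_card_le hτ hs0 hs1
      (by linarith [hd0 i, he0 i])
      (by linarith [hd i, (min_le_right _ _ : e i ≤ 1 / 16)]) _
  obtain ⟨M, hM, hMM₀⟩ := (hev.and (eventually_ge_atTop M₀)).exists
  have hsub : S.T M ⊆ I.biUnion fun i => (S.T M).filter fun y =>
      x i - (d i + e i) ≤ y ∧ y ≤ x i - (d i + e i) + 2 * (d i + e i) := by
    intro y hy
    have hyV : y ∈ S.V M := Set.mem_iUnion₂.2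
      ⟨y, hy, by linarith [S.r_pos M], by linarith [S.r_pos M]⟩
    obtain ⟨i, hi, h1, h2⟩ := Set.mem_iUnion₂.1 (hI (S.antitone_V hτ hMM₀ hyV))
    exact mem_biUnion.2 ⟨i, hi, mem_filter.2 ⟨hy, h1.le, by linarith⟩⟩
  have hone : (1 / 144 : ℝ) ≤ ∑ i ∈ I, (d i ^ s + e' i) := by
    have hTpos : (1 : ℝ) ≤ (S.T M).card := mod_cast S.one_le_card M hτ
    have hterm : ∀ i ∈ I, (2 * (d i + e i)) ^ s ≤ 2 * (d i ^ s + e' i) := fun i _ => by
      rw [Real.mul_rpow two_pos.le (by linarith [hd0 i, he0 i])]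
      refine mul_le_mul (Real.rpow_le_self_of_one_le one_le_two hs1.le)
        ((Real.rpow_add_le_add_rpow (hd0 i) (he0 i).le hs0.le hs1.le).trans
          (by linarith [hepow i]))
        (Real.rpow_nonneg (by linarith [hd0 i, he0 i]) _) two_pos.le
    have h : ((S.T M).card : ℝ) ≤ 144 * (∑ i ∈ I, (d i ^ s + e' i)) * (S.T M).card :=
      calc ((S.T M).card : ℝ) ≤ ∑ i ∈ I, (((S.T M).filter fun y => x i - (d i + e i) ≤ y ∧
            y ≤ x i - (d i + e i) + 2 * (d i + e i)).card : ℝ) := by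
            exact_mod_cast (card_le_card hsub).trans card_biUnion_le
        _ ≤ ∑ i ∈ I, 144 * (d i ^ s + e' i) * (S.T M).card :=
            sum_le_sum fun i hi => (hM i hi).trans
              (mul_le_mul_of_nonneg_right (by linarith [hterm i hi]) (Nat.cast_nonneg _))
        _ = _ := by rw [mul_sum, sum_mul]
    nlinarith
  refine (ENNReal.ofReal_le_ofReal hone).trans ?_
  rw [ENNReal.ofReal_sum_of_nonneg fun i _ => add_nonneg (Real.rpow_nonneg (hd0 i) _)
    (NNReal.coe_nonneg _)]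
  refine ((sum_le_sum fun i _ => ENNReal.ofReal_add_le).trans (ENNReal.sum_le_tsum I)).trans ?_
  rw [ENNReal.tsum_add]
  refine add_le_add (ENNReal.tsum_le_tsum fun i => ?_) ?_
  · rw [← ENNReal.ofReal_rpow_of_nonneg (hd0 i) hs0.le, ENNReal.ofReal_toReal (htop i)]
    rcases (t i).eq_empty_or_nonempty with h | h
    · simp [h, hs0]
    · exact le_iSup_of_le h le_rfl
  · simp only [ENNReal.ofReal_coe_nnreal]
    exact he'sum.le

theorem le_dimH_wellApprox {τ : ℝ} (hτ : 2 ≤ τ) :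
    ENNReal.ofReal (2 / τ) ≤ dimH (wellApprox τ) := by
  refine le_of_forall_lt_imp_le_of_dense fun c hc => ?_
  lift c to ℝ≥0 using hc.ne_top
  rcases eq_or_ne c 0 with rfl | hc0
  · exact zero_le
  refine le_dimH_of_hausdorffMeasure_ne_zero (hausdorffMeasure_wellApprox_ne_zero hτ
    (NNReal.coe_pos.2 (pos_iff_ne_zero.2 hc0)) ?_)
  rw [← ENNReal.ofReal_coe_nnreal, ENNReal.ofReal_lt_ofReal_iff', lt_div_iff₀ (by linarith)]
    at hc
  linarith [hc.1]

end FA.JarnikBesicovitch
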